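import Fermat.Agent.S56.H716.GWSpec3
import Fermat.Agent.S56.H606.Gen
import Fermat.Agent.S37.H99.FrobAt

/-!
# Row S56 — leaf TW-INV (helper277): `h⁰(D_P, ad⁰ρ̄) ≥ 1` at a Taylor–Wiles prime

`theorem twInv : H716.TWInvStatement` (statement of `H716/GWSpec3.lean`, verbatim).

Proof.  `q ∉ S ⊇ Smin`, `q ≠ p`, so `ρ̄` is unramified at `q` (`Hyp.hmin`).  Let `φ` be a Frobenius
element at `P` (`S37.H99.exists_isFrobeniusAt`).  Every `σ ∈ D_P` has `ρ̄ σ = ρ̄ φ ^ n`
(`S56.H606.map_mem_decomposition_eq` + unramifiedness), hence commutes with `ρ̄ φ`.  The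
endomorphism `m = ρ̄ φ − (tr ρ̄ φ / 2)` has trace zero (`p ≠ 2`), commutes with `ρ̄(D_P)`, and is
nonzero because `ρ̄ φ` has two distinct eigenvalues.

Also exported (general, no `Hyp`): `map_eq_pow_of_mem_decomposition`, `adInv_pos_of_frobenius`.
-/

set_option autoImplicit false
set_option linter.style.haveILetI false

open Polynomial IsLocalRing

namespace Fermat.Agent.S56.H277

open Fermat.Agent.S56 Fermat.Agent.S56.H716

section general

variable {k : Type} [Field k] (ρbar : ResidualGaloisRep k)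

/-- If `ρ̄` is unramified at `q`, then on the decomposition group of `P ∣ q` the representation
takes values in the powers of `ρ̄ φ`, `φ` a Frobenius element at `P`. -/
theorem map_eq_pow_of_mem_decomposition {q : ℕ} (hq : q.Prime) {P : ValuationSubring Qb}
    (hP : P.LiesOverPrime q) (hunr : ρbar.IsUnramifiedAt q) {φ : GQ}
    (hφ : P.IsFrobeniusAt φ q) {σ : GQ} (hσ : σ ∈ P.decompositionSubgroup ℚ) :
    ∃ n : ℕ, ρbar.ρ σ = ρbar.ρ φ ^ n := by
  obtain ⟨L, hL, hLρ⟩ := ρbar.factorsThroughFiniteLevel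
  haveI := hL
  have hf : ∀ τ : GQ, (∀ x ∈ L, τ x = x) → ρbar.ρ.toHomUnits τ = 1 := by
    intro τ hτ
    apply Units.ext
    simpa using hLρ τ hτ
  obtain ⟨n, ι, hι, h⟩ :=
    H606.map_mem_decomposition_eq (f := ρbar.ρ.toHomUnits) hq hP L hf hφ hσ
  refine ⟨n, ?_⟩
  have h2 := congrArg (fun u : (Module.End k ρbar.V)ˣ => (u : Module.End k ρbar.V)) h
  simp only [Units.val_mul, Units.val_pow_eq_pow_val, MonoidHom.coe_toHomUnits] at h2
  rw [h2, hunr P hP ι hι, mul_one]

/-- **TW-INV, general form.**  If `2 ≠ 0` in `k`, `ρ̄` is unramified at the prime `q` and a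
Frobenius element at `P ∣ q` has two distinct eigenvalues, then `H⁰(D_P, ad⁰ρ̄) ≠ 0`. -/
theorem adInv_pos_of_frobenius (h2 : (2 : k) ≠ 0) {q : ℕ} (hq : q.Prime)
    {P : ValuationSubring Qb} (hP : P.LiesOverPrime q) (hunr : ρbar.IsUnramifiedAt q) {φ : GQ}
    (hφ : P.IsFrobeniusAt φ q) {α β : k} (hαβ : α ≠ β)
    (hchar : LinearMap.charpoly (ρbar.ρ φ) = (X - C α) * (X - C β)) :
    1 ≤ Module.finrank k (adInv ρbar (P.decompositionSubgroup ℚ)) := by
  set f : Module.End k ρbar.V := ρbar.ρ φ with hf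
  set c : k := LinearMap.trace k ρbar.V f / 2 with hc
  set m : Module.End k ρbar.V := f - c • (1 : Module.End k ρbar.V) with hm
  -- trace zero
  have htr : LinearMap.trace k ρbar.V m = 0 := by
    rw [hm, map_sub, map_smul, LinearMap.trace_one, ρbar.finrank_eq, hc, smul_eq_mul]
    push_cast
    field_simp
    ring
  -- invariance
  have hinv : ∀ σ ∈ P.decompositionSubgroup ℚ, ρbar.ρ σ * m * ρbar.ρ σ⁻¹ = m := by
    intro σ hσ
    obtain ⟨n, hn⟩ := map_eq_pow_of_mem_decomposition ρbar hq hP hunr hφ hσ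
    have hcomm : Commute (ρbar.ρ σ) m := by
      rw [hn, hm]
      exact ((Commute.refl f).pow_left n).sub_right
        ((Commute.one_right _).smul_right c)
    rw [hcomm.eq, mul_assoc, ← map_mul, mul_inv_cancel, map_one, mul_one]
  -- nonvanishing
  have hne : m ≠ 0 := by
    intro h0
    have hfc : f = c • (1 : Module.End k ρbar.V) := sub_eq_zero.mp h0
    have key : ∀ μ : k, (LinearMap.charpoly f).IsRoot μ → μ = c := by
      intro μ hμ
      have hev := (Module.End.hasEigenvalue_iff_isRoot_charpoly f μ).mpr hμ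
      obtain ⟨v, hv⟩ := hev.exists_hasEigenvector
      have h1 := hv.apply_eq_smul
      rw [hfc] at h1
      simp only [LinearMap.smul_apply, Module.End.one_apply] at h1
      have h3 : (c - μ) • v = 0 := by rw [sub_smul, h1, sub_self]
      rcases smul_eq_zero.mp h3 with h4 | h4
      · exact (sub_eq_zero.mp h4).symm
      · exact absurd h4 hv.2
    have hα : α = c := key α (by rw [hchar]; simp)
    have hβ : β = c := key β (by rw [hchar]; simp)
    exact hαβ (hα.trans hβ.symm)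
  have hmem : m ∈ adInv ρbar (P.decompositionSubgroup ℚ) := ⟨htr, hinv⟩
  rw [Nat.succ_le_iff, Module.finrank_pos_iff_exists_ne_zero]
  exact ⟨⟨m, hmem⟩, fun h => hne (congrArg Subtype.val h)⟩

end general

/-- **TW-INV** (`H716.TWInvStatement`, verbatim): `h⁰(D_P, ad⁰ρ̄) ≥ 1` at a Taylor–Wiles prime. -/
theorem twInv : TWInvStatement := by
  intro 𝒪 _ _ _ _ _ p ρbar S Smin hyp q hq P hP
  obtain ⟨hqp, hqS, -, hfrob⟩ := hq
  have hqSmin : q ∉ Smin := fun h => hqS (hyp.hSmin h)
  have hqne : q ≠ p := fun h => hqSmin (h ▸ hyp.hpSmin)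
  have hunr : ρbar.IsUnramifiedAt q := by
    by_contra h
    exact hqSmin ((hyp.hmin q hqp hqne).mpr h)
  obtain ⟨φ, hφ⟩ := Fermat.Agent.S37.H99.exists_isFrobeniusAt q hqp P hP
  obtain ⟨α, β, hαβ, hchar⟩ := hfrob P hP φ hφ
  -- `2 ≠ 0` in the residue field
  have h2 : (2 : ResidueField 𝒪) ≠ 0 := by
    intro h
    have hp0 : ((p : ℕ) : ResidueField 𝒪) = 0 := by
      have := (IsLocalRing.residue_eq_zero_iff (p : 𝒪)).mpr hyp.hp𝒪
      simpa using this
    have hodd : p % 2 = 1 := (hyp.hp.eq_two_or_odd).resolve_left hyp.hp2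
    have h1 : ((p : ℕ) : ResidueField 𝒪) = 1 := by
      conv_lhs => rw [← Nat.div_add_mod p 2, hodd]
      push_cast
      rw [h, zero_mul, zero_add]
    exact one_ne_zero (h1.symm.trans hp0)
  exact adInv_pos_of_frobenius ρbar h2 hqp hP hunr hφ hαβ hchar

end Fermat.Agent.S56.H277
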